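import Fermat.Agent.S17.HN.FO.Cons

/-! # FO-C: the quasi-quadratic Northcott height -/

set_option autoImplicit false

namespace Fermat.Agent.S17.HN.FO

section API

variable {P : Type}

theorem Final_up_add (A B : P →₀ ℕ) : up (A + B) = up A + up B := by
  ext p
  simp [up]

theorem Final_up_single (p : P) (n : ℕ) : up (Finsupp.single p n) = Finsupp.single p (n : ℤ) := by
  simp [up]

theorem Final_lin_add (φ : P → ℝ) (D E : P →₀ ℤ) : lin φ (D + E) = lin φ D + lin φ E := by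
  unfold lin
  exact Finsupp.sum_add_index' (fun _ => by simp) (fun _ _ _ => by push_cast; ring)

theorem Final_lin_zero (φ : P → ℝ) : lin φ 0 = 0 := by simp [lin]

theorem Final_lin_neg (φ : P → ℝ) (D : P →₀ ℤ) : lin φ (-D) = - lin φ D := by
  have := Final_lin_add φ D (-D)
  rw [add_neg_cancel, Final_lin_zero] at this
  linarith

theorem Final_lin_sub (φ : P → ℝ) (D E : P →₀ ℤ) : lin φ (D - E) = lin φ D - lin φ E := by
  rw [sub_eq_add_neg, Final_lin_add, Final_lin_neg, sub_eq_add_neg]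

theorem Final_lin_single (φ : P → ℝ) (p : P) (n : ℤ) : lin φ (Finsupp.single p n) = n * φ p := by
  simp [lin]

theorem Final_lin_up_nonneg (φ : P → ℝ) (hφ : ∀ p, 0 ≤ φ p) (G : P →₀ ℕ) : 0 ≤ lin φ (up G) := by
  unfold lin up
  rw [Finsupp.sum_mapRange_index (by simp)]
  exact Finsupp.sum_nonneg (fun p _ => mul_nonneg (by positivity) (hφ p))

theorem Final_bil_add_left (δ : P → P → ℝ) (D D' E : P →₀ ℤ) :
    bil δ (D + D') E = bil δ D E + bil δ D' E := by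
  unfold bil
  refine Finsupp.sum_add_index' (fun p => by simp) (fun p n n' => ?_)
  rw [← Finsupp.sum_add]
  refine Finsupp.sum_congr fun q _ => ?_
  push_cast
  ring

theorem Final_bil_add_right (δ : P → P → ℝ) (D E E' : P →₀ ℤ) :
    bil δ D (E + E') = bil δ D E + bil δ D E' := by
  unfold bil
  rw [← Finsupp.sum_add]
  refine Finsupp.sum_congr fun p _ => ?_
  exact Finsupp.sum_add_index' (fun q => by simp) (fun q m m' => by push_cast; ring)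

theorem Final_bil_symm (δ : P → P → ℝ) (hδ : ∀ p q, δ p q = δ q p) (D E : P →₀ ℤ) :
    bil δ D E = bil δ E D := by
  unfold bil
  rw [Finsupp.sum_comm]
  refine Finsupp.sum_congr fun q _ => Finsupp.sum_congr fun p _ => ?_
  rw [hδ]
  ring

theorem Final_bil_zero_left (δ : P → P → ℝ) (E : P →₀ ℤ) : bil δ 0 E = 0 := by simp [bil]

theorem Final_bil_zero_right (δ : P → P → ℝ) (D : P →₀ ℤ) : bil δ D 0 = 0 := by simp [bil]

theorem Final_bil_neg_left (δ : P → P → ℝ) (D E : P →₀ ℤ) : bil δ (-D) E = - bil δ D E := by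
  have := Final_bil_add_left δ D (-D) E
  rw [add_neg_cancel, Final_bil_zero_left] at this
  linarith

theorem Final_bil_neg_right (δ : P → P → ℝ) (D E : P →₀ ℤ) : bil δ D (-E) = - bil δ D E := by
  have := Final_bil_add_right δ D E (-E)
  rw [add_neg_cancel, Final_bil_zero_right] at this
  linarith

theorem Final_bil_sub_left (δ : P → P → ℝ) (D D' E : P →₀ ℤ) :
    bil δ (D - D') E = bil δ D E - bil δ D' E := by
  rw [sub_eq_add_neg, Final_bil_add_left, Final_bil_neg_left, sub_eq_add_neg]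

theorem Final_bil_sub_right (δ : P → P → ℝ) (D E E' : P →₀ ℤ) :
    bil δ D (E - E') = bil δ D E - bil δ D E' := by
  rw [sub_eq_add_neg, Final_bil_add_right, Final_bil_neg_right, sub_eq_add_neg]

/-- exact parallelogram identity with error terms. -/
theorem Final_par (δ : P → P → ℝ) (hδ : ∀ p q, δ p q = δ q p) (a b e₁ e₂ : P →₀ ℤ) :
    bil δ (a + b + e₁) (a + b + e₁) + bil δ (a - b + e₂) (a - b + e₂) - 2 * (bil δ a a + bil δ b b) =
      2 * bil δ (a + b) e₁ + bil δ e₁ e₁ + 2 * bil δ (a - b) e₂ + bil δ e₂ e₂ := by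
  simp only [Final_bil_add_left, Final_bil_add_right, Final_bil_sub_left, Final_bil_sub_right]
  rw [Final_bil_symm δ hδ b a, Final_bil_symm δ hδ e₁ a, Final_bil_symm δ hδ e₁ b,
    Final_bil_symm δ hδ e₂ a, Final_bil_symm δ hδ e₂ b]
  ring

end API

variable {P : Type} (X : HtAx P) {Γ : Type} [AddCommGroup Γ] (Y : GrpAx X Γ)

theorem Final_del_symm (p q : P) : X.del p q = X.del q p := by
  unfold HtAx.del
  rw [add_comm (pt p) (pt q)]
  ring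

/-- `UD` four times. -/
theorem Final_UD4 (b i : ℕ) : ∃ C : ℝ, ∀ (B B' : P →₀ ℕ) (c c' : X.Fn i), B.degree ≤ b →
    B'.degree = B.degree → |X.dd (up B - up B') (up (X.Dv c) - up (X.Dv c'))| ≤ C := by
  obtain ⟨C, hC⟩ := UD X b i
  refine ⟨4 * C, fun B B' c c' hB hBB' => ?_⟩
  have h1 := abs_le.mp (hC B c hB)
  have h2 := abs_le.mp (hC B c' hB)
  have h3 := abs_le.mp (hC B' c (hBB' ▸ hB))
  have h4 := abs_le.mp (hC B' c' (hBB' ▸ hB))
  rw [hBB'] at h3 h4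
  unfold HtAx.dd at *
  rw [Final_bil_sub_left, Final_bil_sub_right, Final_bil_sub_right, abs_le]
  constructor <;> linarith [h1.1, h1.2, h2.1, h2.2, h3.1, h3.2, h4.1, h4.2]

/-- the height `h(x) = -δ(D_x, D_x)` -/
noncomputable def hq (x : Γ) : ℝ := - X.dd (X.dz (Y.Ax x)) (X.dz (Y.Ax x))

theorem Final_dz_add (x y : Γ) : ∃ c c' : X.Fn Y.i0, X.dz (Y.Ax (x + y)) =
    X.dz (Y.Ax x) + X.dz (Y.Ax y) + (up (X.Dv c) - up (X.Dv c')) := by
  obtain ⟨c, c', h⟩ := Y.add_rel x y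
  refine ⟨c, c', ?_⟩
  have hup := congrArg up h
  simp only [Final_up_add, Final_up_single] at hup
  have h1 : up (Y.Ax (x + y)) = up (Y.Ax x) + up (Y.Ax y) + up (X.Dv c) - up (X.Dv c') -
      Finsupp.single X.oo (X.g : ℤ) := by
    rw [eq_sub_iff_add_eq, eq_sub_iff_add_eq, ← hup]
  unfold HtAx.dz
  rw [Y.deg_Ax, Y.deg_Ax, Y.deg_Ax, h1]
  abel

theorem Final_dz_sub (x y : Γ) : ∃ c c' : X.Fn Y.i0, X.dz (Y.Ax (x - y)) =
    X.dz (Y.Ax x) - X.dz (Y.Ax y) + (up (X.Dv c) - up (X.Dv c')) := by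
  obtain ⟨c, c', h⟩ := Y.sub_rel x y
  refine ⟨c, c', ?_⟩
  have hup := congrArg up h
  simp only [Final_up_add, Final_up_single] at hup
  have h1 : up (Y.Ax (x - y)) = up (Y.Ax x) + Finsupp.single X.oo (X.g : ℤ) + up (X.Dv c) -
      up (X.Dv c') - up (Y.Ax y) := by
    rw [eq_sub_iff_add_eq, eq_sub_iff_add_eq, ← hup]
  unfold HtAx.dz
  rw [Y.deg_Ax, Y.deg_Ax, Y.deg_Ax, h1]
  abel

/-- **FO-C1.** quasi-parallelogram law (exact bilinearity + `UD`). -/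
theorem hq_parallelogram : ∃ C : ℝ, ∀ x y : Γ,
    |hq X Y (x + y) + hq X Y (x - y) - 2 * (hq X Y x + hq X Y y)| ≤ C := by
  obtain ⟨C, hC⟩ := Final_UD4 X (max (X.g + X.g) (Y.i0 * X.n0)) Y.i0
  refine ⟨6 * C, fun x y => ?_⟩
  obtain ⟨c₁, c₁', h1⟩ := Final_dz_add X Y x y
  obtain ⟨c₂, c₂', h2⟩ := Final_dz_sub X Y x y
  have hs : X.dz (Y.Ax x) + X.dz (Y.Ax y) =
      up (Y.Ax x + Y.Ax y) - up (Finsupp.single X.oo (X.g + X.g)) := by
    rw [Final_up_add, Final_up_single, Nat.cast_add, Finsupp.single_add]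
    unfold HtAx.dz
    rw [Y.deg_Ax, Y.deg_Ax]
    abel
  have hd : X.dz (Y.Ax x) - X.dz (Y.Ax y) = up (Y.Ax x) - up (Y.Ax y) := by
    unfold HtAx.dz
    rw [Y.deg_Ax, Y.deg_Ax]
    abel
  have b1 := hC (Y.Ax x + Y.Ax y) (Finsupp.single X.oo (X.g + X.g)) c₁ c₁'
    (by rw [map_add, Y.deg_Ax, Y.deg_Ax]; exact le_max_left _ _)
    (by rw [map_add, Y.deg_Ax, Y.deg_Ax, Finsupp.degree_single])
  have b2 := hC (X.Dv c₁) (X.Dv c₁') c₁ c₁' (by rw [X.deg_Dv]; exact le_max_right _ _)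
    (by rw [X.deg_Dv, X.deg_Dv])
  have b3 := hC (Y.Ax x) (Y.Ax y) c₂ c₂'
    (by rw [Y.deg_Ax]; exact le_trans (Nat.le_add_right _ _) (le_max_left _ _))
    (by rw [Y.deg_Ax, Y.deg_Ax])
  have b4 := hC (X.Dv c₂) (X.Dv c₂') c₂ c₂' (by rw [X.deg_Dv]; exact le_max_right _ _)
    (by rw [X.deg_Dv, X.deg_Dv])
  rw [← hs] at b1
  rw [← hd] at b3
  have key := Final_par X.del (Final_del_symm X) (X.dz (Y.Ax x)) (X.dz (Y.Ax y))
    (up (X.Dv c₁) - up (X.Dv c₁')) (up (X.Dv c₂) - up (X.Dv c₂'))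
  rw [← h1, ← h2] at key
  unfold hq
  unfold HtAx.dd at *
  rw [abs_le] at b1 b2 b3 b4 ⊢
  constructor <;> linarith [b1.1, b1.2, b2.1, b2.2, b3.1, b3.2, b4.1, b4.2]

/-- **FO-C2.** `Λ_K(x) = λ_K(A_x)` is a quasi-homomorphism. -/
theorem Lam_add : ∃ K0 : ℕ, ∀ K ≥ K0, ∃ C : ℝ, ∀ x y : Γ,
    |lin (X.lam K) (up (Y.Ax (x + y))) - lin (X.lam K) (up (Y.Ax x)) - lin (X.lam K) (up (Y.Ax y))| ≤ C := by
  obtain ⟨K0, hK0⟩ := LAM X Y.i0
  refine ⟨K0, fun K hK => ?_⟩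
  obtain ⟨C, hC⟩ := hK0 K hK
  refine ⟨2 * C + |(X.g : ℝ) * X.lam K X.oo|, fun x y => ?_⟩
  obtain ⟨c, c', h⟩ := Y.add_rel x y
  have hup := congrArg (fun A => lin (X.lam K) (up A)) h
  simp only [Final_up_add, Final_up_single, Final_lin_add, Final_lin_single] at hup
  have h1 := abs_le.mp (hC c)
  have h2 := abs_le.mp (hC c')
  have h3 := abs_le.mp (le_refl |(X.g : ℝ) * X.lam K X.oo|)
  push_cast at hup
  rw [abs_le]
  constructor <;> linarith [h1.1, h1.2, h2.1, h2.2, h3.1, h3.2]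

/-- **FO-C3.** Siegel + `SG` + `HD`. -/
theorem siegel_bound : ∃ K0 : ℕ, ∀ K ≥ K0, ∃ C : ℝ, ∀ y : Γ, ∃ (f : X.Fn K) (G : P →₀ ℕ), G ∈ Y.St ∧
    X.Dv f = Y.Ax y + G ∧
    2 * (((K * X.n0 : ℕ) : ℝ) - 2 * (X.g : ℝ) + 1) * lin X.H (up G)
      ≤ hq X Y y - lin (X.lam K) (up (Y.Ax y)) + C := by
  obtain ⟨K1, hK1⟩ := Y.siegel
  obtain ⟨K2, hK2⟩ := SG X X.g
  refine ⟨max (max K1 K2) (2 * X.g), fun K hK => ?_⟩
  have hKa : K1 ≤ K := le_trans (le_trans (le_max_left _ _) (le_max_left _ _)) hK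
  have hKb : K2 ≤ K := le_trans (le_trans (le_max_right _ _) (le_max_left _ _)) hK
  have hKc : 2 * X.g ≤ K := le_trans (le_max_right _ _) hK
  obtain ⟨C1, hC1⟩ := hK1 K hKa
  obtain ⟨C3, hC3⟩ := hK2 K hKb
  obtain ⟨C2, hC2⟩ := HD X K
  have hD : (0 : ℝ) ≤ ((K * X.n0 : ℕ) : ℝ) - 2 * (X.g : ℝ) + 1 := by
    have h1 : 2 * X.g ≤ K * X.n0 := le_trans hKc (Nat.le_mul_of_pos_right _ X.n0_pos)
    have h2 : ((2 * X.g : ℕ) : ℝ) ≤ ((K * X.n0 : ℕ) : ℝ) := by exact_mod_cast h1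
    push_cast at h2 ⊢
    linarith
  refine ⟨C3 + 2 * C1 + 2 * ((((K * X.n0 : ℕ) : ℝ) - 2 * (X.g : ℝ) + 1) * C2), fun y => ?_⟩
  obtain ⟨f, G, hG, hf, hs⟩ := hC1 y
  refine ⟨f, G, hG, hf, ?_⟩
  have h2 := abs_le.mp (hC2 f)
  have h3 := abs_le.mp (hC3 (Y.Ax y) (Y.deg_Ax y))
  rw [hf, Final_up_add, Final_lin_add] at h2
  have h4 : (((K * X.n0 : ℕ) : ℝ) - 2 * (X.g : ℝ) + 1) *
      (lin X.H (up (Y.Ax y)) + lin X.H (up G) - X.hc f) ≤
      (((K * X.n0 : ℕ) : ℝ) - 2 * (X.g : ℝ) + 1) * C2 := mul_le_mul_of_nonneg_left h2.2 hD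
  unfold hq
  nlinarith [h3.1, h3.2, h4, hs]

theorem Final_H_nonneg (p : P) : 0 ≤ X.H p :=
  div_nonneg (X.hh_nonneg _ _) (Nat.cast_nonneg _)

include X Y in
/-- **FO (main).**  (NB: `X Y` are explicit arguments: `heightData X Y`.) -/
theorem heightData : ∃ (h : Γ → ℝ) (C : ℝ), (∀ x, 0 ≤ h x) ∧
    (∀ x y, |h (x + y) + h (x - y) - 2 * (h x + h y)| ≤ C) ∧
    (∀ B : ℝ, {x | h x ≤ B}.Finite) := by
  obtain ⟨Cp, hP⟩ := hq_parallelogram X Y
  obtain ⟨K1, hK1⟩ := Lam_add X Y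
  obtain ⟨K2, hK2⟩ := siegel_bound X Y
  obtain ⟨K, hKa, hKb, hKc⟩ : ∃ K, K1 ≤ K ∧ K2 ≤ K ∧ 2 * X.g ≤ K :=
    ⟨max (max K1 K2) (2 * X.g), le_trans (le_max_left _ _) (le_max_left _ _),
      le_trans (le_max_right _ _) (le_max_left _ _), le_max_right _ _⟩
  obtain ⟨Cl, hL⟩ := hK1 K hKa
  obtain ⟨Cs, hS⟩ := hK2 K hKb
  obtain ⟨D, hDdef⟩ : ∃ D : ℝ, D = ((K * X.n0 : ℕ) : ℝ) - 2 * (X.g : ℝ) + 1 := ⟨_, rfl⟩
  rw [← hDdef] at hS
  have hD : (1 : ℝ) ≤ D := by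
    have h1 : 2 * X.g ≤ K * X.n0 := le_trans hKc (Nat.le_mul_of_pos_right _ X.n0_pos)
    have h2 : ((2 * X.g : ℕ) : ℝ) ≤ ((K * X.n0 : ℕ) : ℝ) := by exact_mod_cast h1
    rw [hDdef]
    push_cast at h2 ⊢
    linarith
  obtain ⟨Λ, hΛ⟩ : ∃ Λ : Γ → ℝ, Λ = fun y => lin (X.lam K) (up (Y.Ax y)) := ⟨_, rfl⟩
  have hL' : ∀ x y, |Λ (x + y) - Λ x - Λ y| ≤ Cl := by
    intro x y
    rw [hΛ]
    exact hL x y
  have hS' : ∀ y : Γ, ∃ (f : X.Fn K) (G : P →₀ ℕ), G ∈ Y.St ∧ X.Dv f = Y.Ax y + G ∧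
      2 * D * lin X.H (up G) ≤ hq X Y y - Λ y + Cs := by
    intro y
    rw [hΛ]
    exact hS y
  choose f G hGS hfG hbound using hS'
  have hHG : ∀ y, 0 ≤ lin X.H (up (G y)) := fun y => Final_lin_up_nonneg _ (Final_H_nonneg X) _
  have h1 : ∀ y, Λ y - Cs ≤ hq X Y y := by
    intro y
    have := hbound y
    have h0 : 0 ≤ 2 * D * lin X.H (up (G y)) := mul_nonneg (by linarith) (hHG y)
    linarith
  have hCp : 0 ≤ Cp := le_trans (abs_nonneg _) (hP 0 0)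
  have hCl : 0 ≤ Cl := le_trans (abs_nonneg _) (hL' 0 0)
  obtain ⟨c, hc⟩ : ∃ c : ℝ, c = Cs + |Λ 0| + Cl + 2 * |hq X Y 0| + Cp := ⟨_, rfl⟩
  have h2 : ∀ y, |Λ y| ≤ hq X Y y + c := by
    intro y
    have a1 := abs_le.mp (hP 0 y)
    rw [zero_add, zero_sub] at a1
    have a2 := abs_le.mp (hL' y (-y))
    rw [add_neg_cancel] at a2
    have a3 := h1 (-y)
    have a4 := h1 y
    have a5 := abs_le.mp (le_refl |Λ 0|)
    have a6 := abs_le.mp (le_refl |hq X Y 0|)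
    have a7 := abs_nonneg (Λ 0)
    have a8 := abs_nonneg (hq X Y 0)
    rw [abs_le]
    constructor <;> linarith [a1.1, a1.2, a2.1, a2.2, a5.1, a5.2, a6.1, a6.2]
  refine ⟨fun x => hq X Y x + c, Cp + 2 * |c|, fun x => le_trans (abs_nonneg _) (h2 x), fun x y => ?_,
    fun B => ?_⟩
  · have a1 := abs_le.mp (hP x y)
    have a2 := abs_le.mp (le_refl |c|)
    rw [abs_le]
    constructor <;> linarith [a1.1, a1.2, a2.1, a2.2]
  · have hinj : Function.Injective G := by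
      intro y y' hyy
      exact Y.inj K (f y) (f y') y y' (G y) (hfG y) (by rw [hyy]; exact hfG y')
    have hfin := Y.northcott (K * X.n0 - X.g) ((2 * B - c + Cs) / (2 * D))
    refine (hfin.preimage (Set.injOn_of_injective hinj)).subset ?_
    intro x hx
    have hx' : hq X Y x + c ≤ B := hx
    refine ⟨hGS x, ?_, ?_⟩
    · have h3 := congrArg Finsupp.degree (hfG x)
      rw [X.deg_Dv, map_add, Y.deg_Ax] at h3
      omega
    · rw [le_div_iff₀ (by linarith)]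
      have a1 := hbound x
      have a2 := abs_le.mp (h2 x)
      linarith [a2.1, a2.2]

end Fermat.Agent.S17.HN.FO
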