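import Fermat.Agent.S17.HN.FO.W

/-! # FO-B: `(W) + (LEV) + (M1) ⇒ (HD), (UD), (LAM), (SG)` -/

set_option autoImplicit false

namespace Fermat.Agent.S17.HN.FO

/-! ### exact (bi)linear algebra of `up`, `lin`, `bil` -/

section Aux

variable {P : Type}

theorem cons_up_add (A B : P →₀ ℕ) : up (A + B) = up A + up B := by
  ext p; simp [up]

theorem cons_up_single (p : P) (n : ℕ) : up (Finsupp.single p n) = Finsupp.single p (n : ℤ) := by
  simp [up, Finsupp.mapRange_single]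

theorem cons_lin_add (φ : P → ℝ) (D E : P →₀ ℤ) : lin φ (D + E) = lin φ D + lin φ E := by
  unfold lin
  exact Finsupp.sum_add_index' (by simp) (by intros; push_cast; ring)

theorem cons_lin_neg (φ : P → ℝ) (D : P →₀ ℤ) : lin φ (-D) = - lin φ D := by
  have h := cons_lin_add φ D (-D)
  have h0 : lin φ (0 : P →₀ ℤ) = 0 := by simp [lin]
  rw [add_neg_cancel, h0] at h
  linarith

theorem cons_lin_sub (φ : P → ℝ) (D E : P →₀ ℤ) : lin φ (D - E) = lin φ D - lin φ E := by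
  rw [sub_eq_add_neg, cons_lin_add, cons_lin_neg]; ring

theorem cons_lin_single (φ : P → ℝ) (p : P) (n : ℤ) : lin φ (Finsupp.single p n) = n * φ p := by
  unfold lin
  rw [Finsupp.sum_single_index (by simp)]

theorem cons_lin_fadd (φ ψ : P → ℝ) (D : P →₀ ℤ) :
    lin (fun p => φ p + ψ p) D = lin φ D + lin ψ D := by
  unfold lin
  rw [← Finsupp.sum_add]
  exact Finsupp.sum_congr fun p _ => by ring

theorem cons_lin_fsmul (a : ℝ) (φ : P → ℝ) (D : P →₀ ℤ) :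
    lin (fun p => a * φ p) D = a * lin φ D := by
  unfold lin
  rw [Finsupp.mul_sum]
  exact Finsupp.sum_congr fun p _ => by ring

theorem cons_lin_fsub (φ ψ : P → ℝ) (D : P →₀ ℤ) :
    lin (fun p => φ p - ψ p) D = lin φ D - lin ψ D := by
  have h1 := cons_lin_fadd φ (fun p => (-1 : ℝ) * ψ p) D
  rw [cons_lin_fsmul] at h1
  have h2 : (fun p => φ p - ψ p) = fun p => φ p + (-1 : ℝ) * ψ p := by
    funext p; ring
  rw [h2, h1]; ring

theorem cons_lin_up (φ : P → ℝ) (A : P →₀ ℕ) :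
    lin φ (up A) = ∑ p ∈ A.support, (A p : ℝ) * φ p := by
  unfold lin up
  rw [Finsupp.sum_mapRange_index (by simp)]
  simp [Finsupp.sum]

theorem cons_abs_lin_le (φ : P → ℝ) (C : ℝ) (h : ∀ p, |φ p| ≤ C) (A : P →₀ ℕ) :
    |lin φ (up A)| ≤ (A.degree : ℝ) * C := by
  rw [cons_lin_up, Finsupp.degree_apply]
  push_cast
  rw [Finset.sum_mul]
  refine (Finset.abs_sum_le_sum_abs _ _).trans (Finset.sum_le_sum fun p _ => ?_)
  rw [abs_mul, abs_of_nonneg (Nat.cast_nonneg _)]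
  exact mul_le_mul_of_nonneg_left (h p) (Nat.cast_nonneg _)

theorem cons_bil_eq (δ : P → P → ℝ) (D E : P →₀ ℤ) :
    bil δ D E = lin (fun p => lin (δ p) E) D := by
  unfold bil lin
  refine Finsupp.sum_congr fun p _ => ?_
  rw [Finsupp.mul_sum]
  exact Finsupp.sum_congr fun q _ => by ring

theorem cons_bil_add_left (δ : P → P → ℝ) (D D' E : P →₀ ℤ) :
    bil δ (D + D') E = bil δ D E + bil δ D' E := by
  simp only [cons_bil_eq, cons_lin_add]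

theorem cons_bil_add_right (δ : P → P → ℝ) (D E E' : P →₀ ℤ) :
    bil δ D (E + E') = bil δ D E + bil δ D E' := by
  simp only [cons_bil_eq, cons_lin_add, cons_lin_fadd]

theorem cons_bil_sub_left (δ : P → P → ℝ) (D D' E : P →₀ ℤ) :
    bil δ (D - D') E = bil δ D E - bil δ D' E := by
  simp only [cons_bil_eq, cons_lin_sub]

theorem cons_bil_sub_right (δ : P → P → ℝ) (D E E' : P →₀ ℤ) :
    bil δ D (E - E') = bil δ D E - bil δ D E' := by
  simp only [cons_bil_eq, cons_lin_sub, cons_lin_fsub]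

theorem cons_bil_single_right (δ : P → P → ℝ) (D : P →₀ ℤ) (q : P) (m : ℤ) :
    bil δ D (Finsupp.single q m) = m * bil δ D (Finsupp.single q 1) := by
  simp only [cons_bil_eq, cons_lin_single, cons_lin_fsmul]
  simp

theorem cons_bil_single_single (δ : P → P → ℝ) (p q : P) (n m : ℤ) :
    bil δ (Finsupp.single p n) (Finsupp.single q m) = n * m * δ p q := by
  simp only [cons_bil_eq, cons_lin_single]; ring

theorem cons_bil_symm (δ : P → P → ℝ) (hδ : ∀ p q, δ p q = δ q p) (D E : P →₀ ℤ) :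
    bil δ D E = bil δ E D := by
  unfold bil
  rw [Finsupp.sum_comm]
  refine Finsupp.sum_congr fun p _ => Finsupp.sum_congr fun q _ => ?_
  rw [hδ q p]; ring

end Aux

variable {P : Type} (X : HtAx P)

/-- `L_j(A) = ∑_{p ∈ A} hh_j(p)` -/
noncomputable def consL (j : ℕ) (A : P →₀ ℕ) : ℝ := lin (fun p => X.hh j (pt p)) (up A)

theorem consL_add (j : ℕ) (A B : P →₀ ℕ) : consL X j (A + B) = consL X j A + consL X j B := by
  unfold consL; rw [cons_up_add, cons_lin_add]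

theorem cons_del_symm (p q : P) : X.del p q = X.del q p := by
  unfold HtAx.del; rw [add_comm (pt p) (pt q)]; ring

theorem cons_dd_symm (D E : P →₀ ℤ) : X.dd D E = X.dd E D :=
  cons_bil_symm _ (cons_del_symm X) D E

theorem cons_del2_add (A B : P →₀ ℕ) :
    X.del2 (A + B) = X.del2 A + X.del2 B + X.dd (up A) (up B) := by
  have hs := cons_dd_symm X (up B) (up A)
  unfold HtAx.del2
  rw [cons_up_add, cons_lin_add]
  unfold HtAx.dd at hs ⊢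
  rw [cons_bil_add_left, cons_bil_add_right, cons_bil_add_right, hs]
  ring

theorem cons_n0_mul_H (A : P →₀ ℕ) : (X.n0 : ℝ) * lin X.H (up A) = consL X 1 A := by
  have hn : (X.n0 : ℝ) ≠ 0 := by exact_mod_cast X.n0_pos.ne'
  unfold consL
  rw [← cons_lin_fsmul]
  congr 1
  funext p
  unfold HtAx.H
  field_simp

theorem cons_lin_lam (K : ℕ) (A : P →₀ ℕ) :
    lin (X.lam K) (up A) = - lin (fun p => X.del p p) (up A) - 2 * consL X K A
      + 2 * (((K * X.n0 : ℕ) : ℝ) - (X.g : ℝ) + 1) * lin X.H (up A) := by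
  unfold consL
  rw [← cons_lin_fsmul, ← cons_lin_fsmul, ← neg_one_mul, ← cons_lin_fsmul, ← cons_lin_fsub,
    ← cons_lin_fadd]
  congr 1
  funext p
  unfold HtAx.lam
  ring

/-- `(LEV)` summed over the points of a divisor of bounded degree. -/
theorem cons_levsum (i b : ℕ) : ∃ J : ℕ, ∀ j ≥ J, ∃ C : ℝ, ∀ B : P →₀ ℕ, B.degree ≤ b →
    |consL X (j + i) B - consL X j B - i * consL X 1 B| ≤ C := by
  obtain ⟨J, hJ⟩ := lev X i
  refine ⟨J, fun j hj => ?_⟩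
  obtain ⟨C, hC⟩ := hJ j hj
  refine ⟨b * |C|, fun B hB => ?_⟩
  have h1 : consL X (j + i) B - consL X j B - i * consL X 1 B
      = lin (fun p => X.hh (j + i) (pt p) - X.hh j (pt p) - i * X.hh 1 (pt p)) (up B) := by
    unfold consL
    rw [← cons_lin_fsmul, ← cons_lin_fsub, ← cons_lin_fsub]
  rw [h1]
  refine (cons_abs_lin_le _ |C| (fun p => (hC p).trans (le_abs_self C)) B).trans ?_
  exact mul_le_mul_of_nonneg_right (by exact_mod_cast hB) (abs_nonneg C)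

/-- `(E0)`: `L_{j+i}(D_c) - δ₂(D_c) = (j n0 - g + 1) h(c) + O(1)`. -/
theorem cons_E0 (i : ℕ) : ∃ J : ℕ, ∀ j ≥ J, ∃ C : ℝ, ∀ c : X.Fn i,
    |consL X (j + i) (X.Dv c) - X.del2 (X.Dv c)
      - (((j * X.n0 : ℕ) : ℝ) - (X.g : ℝ) + 1) * X.hc c| ≤ C := by
  obtain ⟨J1, h1⟩ := X.m1 0 i
  obtain ⟨J2, h2⟩ := W X (i * X.n0)
  refine ⟨max J1 J2, fun j hj => ?_⟩
  obtain ⟨C1, hC1⟩ := h1 j ((le_max_left _ _).trans hj)
  obtain ⟨C2, hC2⟩ := h2 (j + i) (((le_max_right _ _).trans hj).trans (Nat.le_add_right _ _))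
  refine ⟨C1 + C2, fun c => ?_⟩
  have a := hC1 0 c (by simp)
  have b := hC2 (X.Dv c) (X.deg_Dv c).le
  rw [zero_add, X.hh_zero, map_zero] at a
  simp only [Nat.cast_zero, sub_zero] at a
  change |X.hh (j + i) (X.Dv c) - (consL X (j + i) (X.Dv c) - X.del2 (X.Dv c))| ≤ C2 at b
  rw [abs_le] at a b ⊢
  constructor <;> linarith [a.1, a.2, b.1, b.2]

/-- `L_1(D_c) = n0 h(c) + O(1)`. -/
theorem cons_HD' (i : ℕ) : ∃ C : ℝ, ∀ c : X.Fn i,
    |consL X 1 (X.Dv c) - (X.n0 : ℝ) * X.hc c| ≤ C := by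
  obtain ⟨J1, h1⟩ := cons_E0 X i
  obtain ⟨J2, h2⟩ := cons_levsum X 1 (i * X.n0)
  obtain ⟨C1, hC1⟩ := h1 (max J1 J2) (le_max_left _ _)
  obtain ⟨C2, hC2⟩ := h1 (max J1 J2 + 1) ((le_max_left _ _).trans (Nat.le_succ _))
  obtain ⟨C3, hC3⟩ := h2 (max J1 J2 + i) ((le_max_right _ _).trans (Nat.le_add_right _ _))
  refine ⟨C1 + C2 + C3, fun c => ?_⟩
  have a := hC1 c
  have b := hC2 c
  have d := hC3 (X.Dv c) (X.deg_Dv c).le
  generalize max J1 J2 = j at a b d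
  rw [show j + 1 + i = j + i + 1 by omega] at b
  push_cast at a b d
  rw [abs_le] at a b d ⊢
  constructor <;> nlinarith [a.1, a.2, b.1, b.2, d.1, d.2]

/-- **FO-B1 (HD).** `H(D_c) = h(c) + O(1)`. -/
theorem HD (i : ℕ) : ∃ C : ℝ, ∀ c : X.Fn i, |lin X.H (up (X.Dv c)) - X.hc c| ≤ C := by
  obtain ⟨C, hC⟩ := cons_HD' X i
  have hn : (0 : ℝ) < X.n0 := by exact_mod_cast X.n0_pos
  refine ⟨C / X.n0, fun c => ?_⟩
  have h := hC c
  rw [← cons_n0_mul_H, ← mul_sub, abs_mul, abs_of_pos hn] at h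
  rw [le_div_iff₀ hn]
  linarith

/-- **FO-B2 (UD).** `δ(B, D_c) = i n0 H(B) + deg(B) h(c) + O(1)`. -/
theorem UD (b i : ℕ) : ∃ C : ℝ, ∀ (B : P →₀ ℕ) (c : X.Fn i), B.degree ≤ b →
    |X.dd (up B) (up (X.Dv c)) - (((i * X.n0 : ℕ) : ℝ) * lin X.H (up B) + (B.degree : ℝ) * X.hc c)| ≤ C := by
  obtain ⟨J1, h1⟩ := X.m1 b i
  obtain ⟨J2, h2⟩ := W X (b + i * X.n0)
  obtain ⟨J3, h3⟩ := W X b
  obtain ⟨J4, h4⟩ := cons_E0 X i
  obtain ⟨J5, h5⟩ := cons_levsum X i b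
  obtain ⟨j, hj1, hj2, hj3, hj4, hj5⟩ : ∃ j, J1 ≤ j ∧ J2 ≤ j ∧ J3 ≤ j ∧ J4 ≤ j ∧ J5 ≤ j :=
    ⟨J1 + J2 + J3 + J4 + J5, by omega, by omega, by omega, by omega, by omega⟩
  obtain ⟨C1, hC1⟩ := h1 j hj1
  obtain ⟨C2, hC2⟩ := h2 (j + i) (hj2.trans (Nat.le_add_right _ _))
  obtain ⟨C3, hC3⟩ := h3 j hj3
  obtain ⟨C4, hC4⟩ := h4 j hj4
  obtain ⟨C5, hC5⟩ := h5 j hj5
  refine ⟨C1 + C2 + C3 + C4 + C5, fun B c hB => ?_⟩
  have e1 := hC1 B c hB
  have e2 := hC2 (B + X.Dv c) (by rw [map_add, X.deg_Dv]; omega)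
  have e3 := hC3 B hB
  have e4 := hC4 c
  have e5 := hC5 B hB
  change |X.hh (j + i) (B + X.Dv c) - (consL X (j + i) (B + X.Dv c) - X.del2 (B + X.Dv c))| ≤ C2
    at e2
  change |X.hh j B - (consL X j B - X.del2 B)| ≤ C3 at e3
  rw [consL_add, cons_del2_add] at e2
  have hH : ((i * X.n0 : ℕ) : ℝ) * lin X.H (up B) = i * consL X 1 B := by
    rw [← cons_n0_mul_H]; push_cast; ring
  rw [hH]
  rw [abs_le] at e1 e2 e3 e4 e5 ⊢
  constructor <;> nlinarith [e1.1, e1.2, e2.1, e2.2, e3.1, e3.2, e4.1, e4.2, e5.1, e5.2]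

/-- **FO-B3 (LAM).** `λ_K(D_c) = O(1)`. -/
theorem LAM (i : ℕ) : ∃ K0 : ℕ, ∀ K ≥ K0, ∃ C : ℝ, ∀ c : X.Fn i,
    |lin (X.lam K) (up (X.Dv c))| ≤ C := by
  obtain ⟨J1, h1⟩ := cons_E0 X i
  obtain ⟨C2, hC2⟩ := UD X (i * X.n0) i
  obtain ⟨C3, hC3⟩ := HD X i
  refine ⟨J1 + i, fun K hK => ?_⟩
  obtain ⟨j, rfl⟩ : ∃ j, K = j + i := ⟨K - i, by omega⟩
  obtain ⟨C1, hC1⟩ := h1 j (by omega)
  refine ⟨2 * C1 + C2 + |2 * ((((j + i) * X.n0 : ℕ) : ℝ) - (X.g : ℝ) + 1) - ((i * X.n0 : ℕ) : ℝ)| * C3,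
    fun c => ?_⟩
  have e1 := hC1 c
  have e2 := hC2 (X.Dv c) c (X.deg_Dv c).le
  have e3 := hC3 c
  rw [X.deg_Dv c] at e2
  have key : lin (X.lam (j + i)) (up (X.Dv c))
      = - 2 * (consL X (j + i) (X.Dv c) - X.del2 (X.Dv c)
          - (((j * X.n0 : ℕ) : ℝ) - (X.g : ℝ) + 1) * X.hc c)
        - (X.dd (up (X.Dv c)) (up (X.Dv c)) - (((i * X.n0 : ℕ) : ℝ) * lin X.H (up (X.Dv c))
          + ((i * X.n0 : ℕ) : ℝ) * X.hc c))
        + (2 * ((((j + i) * X.n0 : ℕ) : ℝ) - (X.g : ℝ) + 1) - ((i * X.n0 : ℕ) : ℝ))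
          * (lin X.H (up (X.Dv c)) - X.hc c) := by
    rw [cons_lin_lam]
    unfold HtAx.del2
    push_cast
    ring
  rw [key]
  have e3' := mul_le_mul_of_nonneg_left e3
    (abs_nonneg (2 * ((((j + i) * X.n0 : ℕ) : ℝ) - (X.g : ℝ) + 1) - ((i * X.n0 : ℕ) : ℝ)))
  rw [← abs_mul] at e3'
  rw [abs_le] at e1 e2 e3' ⊢
  constructor <;> linarith [e1.1, e1.2, e2.1, e2.2, e3'.1, e3'.2]

/-- **FO-B4 (SG).** `2 (hh_K(A) - dim·H(A)) = -δ(A - a∞, A - a∞) - λ_K(A) + O(1)`. -/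
theorem SG (a : ℕ) : ∃ K0 : ℕ, ∀ K ≥ K0, ∃ C : ℝ, ∀ A : P →₀ ℕ, A.degree = a →
    |2 * (X.hh K A - (((K * X.n0 : ℕ) : ℝ) - (a : ℝ) - (X.g : ℝ) + 1) * lin X.H (up A))
      - (- X.dd (X.dz A) (X.dz A) - lin (X.lam K) (up A))| ≤ C := by
  obtain ⟨J1, h1⟩ := W X a
  obtain ⟨C2, hC2⟩ := UD X a 1
  have hn : (0 : ℝ) < X.n0 := by exact_mod_cast X.n0_pos
  refine ⟨J1, fun K hK => ?_⟩
  obtain ⟨C1, hC1⟩ := h1 K hK
  refine ⟨2 * C1 + 2 * a * (C2 / X.n0) + (a : ℝ) ^ 2 * |X.del X.oo X.oo|, fun A hA => ?_⟩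
  have e1 := hC1 A hA.le
  have e2 := hC2 A (X.one 1) hA.le
  change |X.hh K A - (consL X K A - X.del2 A)| ≤ C1 at e1
  rw [X.Dv_one, X.hc_one, mul_zero, add_zero, cons_up_single] at e2
  -- `δ(A, ∞)`
  set t : ℝ := X.dd (up A) (Finsupp.single X.oo 1) with ht
  have h2 : X.dd (up A) (Finsupp.single X.oo ((1 * X.n0 : ℕ) : ℤ)) = (X.n0 : ℝ) * t := by
    rw [ht]; unfold HtAx.dd
    rw [cons_bil_single_right]; push_cast; ring
  rw [h2] at e2
  have e2' : |t - lin X.H (up A)| ≤ C2 / X.n0 := by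
    rw [le_div_iff₀ hn]
    have : (X.n0 : ℝ) * t - ((1 * X.n0 : ℕ) : ℝ) * lin X.H (up A)
        = (X.n0 : ℝ) * (t - lin X.H (up A)) := by push_cast; ring
    rw [this, abs_mul, abs_of_pos hn] at e2
    linarith
  have h3 : X.dd (X.dz A) (X.dz A)
      = X.dd (up A) (up A) - 2 * a * t + (a : ℝ) ^ 2 * X.del X.oo X.oo := by
    have hs := cons_dd_symm X (Finsupp.single X.oo (a : ℤ)) (up A)
    have h4 : X.dd (up A) (Finsupp.single X.oo (a : ℤ)) = (a : ℝ) * t := by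
      rw [ht]; unfold HtAx.dd
      rw [cons_bil_single_right]; push_cast; ring
    rw [h4] at hs
    unfold HtAx.dz
    rw [hA]
    unfold HtAx.dd at hs h4 ⊢
    rw [cons_bil_sub_left, cons_bil_sub_right, cons_bil_sub_right, hs, h4,
      cons_bil_single_single]
    push_cast
    ring
  have key : 2 * (X.hh K A - (((K * X.n0 : ℕ) : ℝ) - (a : ℝ) - (X.g : ℝ) + 1) * lin X.H (up A))
      - (- X.dd (X.dz A) (X.dz A) - lin (X.lam K) (up A))
      = 2 * (X.hh K A - (consL X K A - X.del2 A)) - 2 * a * (t - lin X.H (up A))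
        + (a : ℝ) ^ 2 * X.del X.oo X.oo := by
    rw [h3, cons_lin_lam]
    unfold HtAx.del2
    ring
  rw [key]
  have e2'' := mul_le_mul_of_nonneg_left e2' (by positivity : (0 : ℝ) ≤ 2 * a)
  have e4 : |2 * (a : ℝ) * (t - lin X.H (up A))| ≤ 2 * a * (C2 / X.n0) := by
    rw [abs_mul, abs_of_nonneg (by positivity : (0 : ℝ) ≤ 2 * a)]; exact e2''
  have e5 : |(a : ℝ) ^ 2 * X.del X.oo X.oo| ≤ (a : ℝ) ^ 2 * |X.del X.oo X.oo| := by
    rw [abs_mul, abs_of_nonneg (by positivity : (0 : ℝ) ≤ (a : ℝ) ^ 2)]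
  rw [abs_le] at e1 e4 e5 ⊢
  constructor <;> linarith [e1.1, e1.2, e4.1, e4.2, e5.1, e5.2]

end Fermat.Agent.S17.HN.FO
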