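import Mathlib

/-!
# S17 / HN / FO: the formal part (abstract axioms `⇒` quasi-quadratic Northcott height)

`P` = places of `F = Qbar(X₀(N))`, `P →₀ ℕ` = effective divisors, `hh j A` = absolute height of the
subspace `L(j·n0·∞ - A) ⊆ L(j·n0·∞)`, `Fn i` = nonzero elements `c` of `L(i·n0·∞)`,
`Dv c = div c + i·n0·∞`, `hc c` = height of the coefficient vector of `c`.
-/

set_option autoImplicit false

namespace Fermat.Agent.S17.HN.FO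

noncomputable section

/-- the divisor of one point -/
abbrev pt {P : Type} (p : P) : P →₀ ℕ := Finsupp.single p 1

/-- effective divisor `→` divisor -/
def up {P : Type} (A : P →₀ ℕ) : P →₀ ℤ := A.mapRange (fun n : ℕ => (n : ℤ)) rfl

/-- additive extension of a function on points -/
def lin {P : Type} (φ : P → ℝ) (D : P →₀ ℤ) : ℝ := D.sum fun p n => (n : ℝ) * φ p

/-- biadditive extension of a function on pairs of points -/
def bil {P : Type} (δ : P → P → ℝ) (D E : P →₀ ℤ) : ℝ :=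
  D.sum fun p n => E.sum fun q m => (n : ℝ) * (m : ℝ) * δ p q

/-- The axioms on subspace heights: `(MULT)` (two instances) and `(M1)`. -/
structure HtAx (P : Type) where
  oo : P
  g : ℕ
  n0 : ℕ
  n0_pos : 0 < n0
  hh : ℕ → (P →₀ ℕ) → ℝ
  Fn : ℕ → Type
  Dv : ∀ {i : ℕ}, Fn i → (P →₀ ℕ)
  hc : ∀ {i : ℕ}, Fn i → ℝ
  one : ∀ i : ℕ, Fn i
  Dv_one : ∀ i, Dv (one i) = Finsupp.single oo (i * n0)
  hc_one : ∀ i, hc (one i) = 0
  deg_Dv : ∀ {i : ℕ} (c : Fn i), (Dv c).degree = i * n0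
  hh_zero : ∀ j, hh j 0 = 0
  hh_nonneg : ∀ j A, 0 ≤ hh j A
  mult0 : ∀ b : ℕ, ∃ J : ℕ, ∀ j ≥ J, ∃ C : ℝ, ∀ (B : P →₀ ℕ) (p : P), B.degree ≤ b →
    |(hh (j + 1) (B + pt p) - hh (j + 1) B) - hh 1 (pt p) - (hh j (B + pt p) - hh j B)| ≤ C
  mult1 : ∀ b : ℕ, ∃ J : ℕ, ∀ j ≥ J, ∃ C : ℝ, ∀ (B : P →₀ ℕ) (p q : P), B.degree ≤ b →
    |(hh (j + 1) (B + pt q + pt p) - hh (j + 1) (B + pt q)) - (hh 1 (pt q + pt p) - hh 1 (pt q))
      - (hh j (B + pt p) - hh j B)| ≤ C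
  m1 : ∀ b i : ℕ, ∃ J : ℕ, ∀ j ≥ J, ∃ C : ℝ, ∀ (B : P →₀ ℕ) (c : Fn i), B.degree ≤ b →
    |hh (j + i) (B + Dv c) - hh j B - (((j * n0 : ℕ) : ℝ) - (B.degree : ℝ) - (g : ℝ) + 1) * hc c| ≤ C

namespace HtAx

variable {P : Type} (X : HtAx P)

/-- `δ(p,q) = hh(p) + hh(q) - hh(p+q)` at level 1 (`p = q` allowed). -/
def del (p q : P) : ℝ := X.hh 1 (pt p) + X.hh 1 (pt q) - X.hh 1 (pt p + pt q)

/-- the bilinear form `δ` on divisors -/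
def dd (D E : P →₀ ℤ) : ℝ := bil X.del D E

/-- `H(p) = hh_1(p) / n0` -/
def H (p : P) : ℝ := X.hh 1 (pt p) / X.n0

/-- `δ₂(A) = ∑_{i<j} δ(P_i,P_j)` -/
def del2 (A : P →₀ ℕ) : ℝ := (X.dd (up A) (up A) - lin (fun p => X.del p p) (up A)) / 2

/-- the additive function `λ_K` -/
def lam (K : ℕ) (p : P) : ℝ :=
  - X.del p p - 2 * X.hh K (pt p) + 2 * (((K * X.n0 : ℕ) : ℝ) - (X.g : ℝ) + 1) * X.H p

/-- the degree zero divisor `A - deg(A)·∞` -/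
def dz (A : P →₀ ℕ) : P →₀ ℤ := up A - Finsupp.single X.oo (A.degree : ℤ)

end HtAx

/-- The axioms relating the group `Γ = J(ℚ)` to divisors: canonical Galois stable representatives,
Siegel's lemma, Northcott for Galois stable effective divisors. -/
structure GrpAx {P : Type} (X : HtAx P) (Γ : Type) [AddCommGroup Γ] where
  Ax : Γ → (P →₀ ℕ)
  deg_Ax : ∀ x, (Ax x).degree = X.g
  i0 : ℕ
  add_rel : ∀ x y, ∃ c c' : X.Fn i0,
    Ax (x + y) + Finsupp.single X.oo X.g + X.Dv c' = Ax x + Ax y + X.Dv c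
  sub_rel : ∀ x y, ∃ c c' : X.Fn i0,
    Ax (x - y) + Ax y + X.Dv c' = Ax x + Finsupp.single X.oo X.g + X.Dv c
  St : Set (P →₀ ℕ)
  siegel : ∃ K0 : ℕ, ∀ K ≥ K0, ∃ C : ℝ, ∀ y, ∃ (f : X.Fn K) (G : P →₀ ℕ), G ∈ St ∧
    X.Dv f = Ax y + G ∧
    (((K * X.n0 : ℕ) : ℝ) - 2 * (X.g : ℝ) + 1) * X.hc f ≤ X.hh K (Ax y) + C
  inj : ∀ (K : ℕ) (f f' : X.Fn K) (y y' : Γ) (G : P →₀ ℕ),
    X.Dv f = Ax y + G → X.Dv f' = Ax y' + G → y = y'
  northcott : ∀ (d : ℕ) (T : ℝ), {G : P →₀ ℕ | G ∈ St ∧ G.degree = d ∧ lin X.H (up G) ≤ T}.Finite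

end

end Fermat.Agent.S17.HN.FO
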