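import Fermat.Agent.S17.HN.FO.Defs

/-!
# S17 / HN / FO: the elementary API of `up`, `lin`, `bil`, `del`, `dd`, `del2`

All lemmas live in the sub-namespace `LB` (use `open LB`).
-/

set_option autoImplicit false

namespace Fermat.Agent.S17.HN.FO

namespace LB

variable {P : Type}

/-! ### `up` -/

theorem up_zero : up (0 : P →₀ ℕ) = 0 := Finsupp.mapRange_zero

theorem up_add (A B : P →₀ ℕ) : up (A + B) = up A + up B :=
  Finsupp.mapRange_add (fun _ _ => Nat.cast_add _ _) A B

theorem up_single (p : P) (n : ℕ) : up (Finsupp.single p n) = Finsupp.single p (n : ℤ) :=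
  Finsupp.mapRange_single

theorem up_pt (p : P) : up (pt p) = Finsupp.single p 1 := by
  rw [up_single, Nat.cast_one]

theorem up_apply (A : P →₀ ℕ) (p : P) : up A p = (A p : ℤ) := rfl

/-! ### `lin` -/

theorem lin_zero (φ : P → ℝ) : lin φ 0 = 0 := Finsupp.sum_zero_index

theorem lin_add (φ : P → ℝ) (D E : P →₀ ℤ) : lin φ (D + E) = lin φ D + lin φ E :=
  Finsupp.sum_add_index' (fun _ => by simp) (fun _ _ _ => by push_cast; ring)

theorem lin_single (φ : P → ℝ) (p : P) (n : ℤ) : lin φ (Finsupp.single p n) = n * φ p :=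
  Finsupp.sum_single_index (by simp)

theorem lin_neg (φ : P → ℝ) (D : P →₀ ℤ) : lin φ (-D) = - lin φ D := by
  have h := lin_add φ D (-D)
  rw [add_neg_cancel, lin_zero] at h
  linarith

theorem lin_sub (φ : P → ℝ) (D E : P →₀ ℤ) : lin φ (D - E) = lin φ D - lin φ E := by
  rw [sub_eq_add_neg, lin_add, lin_neg, sub_eq_add_neg]

theorem lin_pt (φ : P → ℝ) (p : P) : lin φ (up (pt p)) = φ p := by
  rw [up_pt, lin_single, Int.cast_one, one_mul]

theorem lin_fun_add (φ ψ : P → ℝ) (D : P →₀ ℤ) :
    lin (fun p => φ p + ψ p) D = lin φ D + lin ψ D := by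
  unfold lin
  rw [← Finsupp.sum_add]
  exact Finsupp.sum_congr fun _ _ => mul_add _ _ _

theorem lin_fun_sub (φ ψ : P → ℝ) (D : P →₀ ℤ) :
    lin (fun p => φ p - ψ p) D = lin φ D - lin ψ D := by
  unfold lin
  rw [← Finsupp.sum_sub]
  exact Finsupp.sum_congr fun _ _ => mul_sub _ _ _

theorem lin_fun_neg (φ : P → ℝ) (D : P →₀ ℤ) : lin (fun p => - φ p) D = - lin φ D := by
  unfold lin
  rw [← Finsupp.sum_neg]
  exact Finsupp.sum_congr fun _ _ => mul_neg _ _

theorem lin_fun_mul (c : ℝ) (φ : P → ℝ) (D : P →₀ ℤ) :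
    lin (fun p => c * φ p) D = c * lin φ D := by
  unfold lin
  rw [Finsupp.mul_sum]
  exact Finsupp.sum_congr fun _ _ => by ring

theorem lin_fun_div (c : ℝ) (φ : P → ℝ) (D : P →₀ ℤ) :
    lin (fun p => φ p / c) D = lin φ D / c := by
  simp only [div_eq_inv_mul]
  exact lin_fun_mul _ _ _

theorem lin_fun_zero (D : P →₀ ℤ) : lin (fun _ : P => (0 : ℝ)) D = 0 := by
  unfold lin
  simp

/-- `lin` of the constant function is the degree -/
theorem lin_const_up (c : ℝ) (A : P →₀ ℕ) : lin (fun _ => c) (up A) = (A.degree : ℝ) * c := by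
  induction A using Finsupp.induction_linear with
  | zero => rw [up_zero, lin_zero, map_zero, Nat.cast_zero, zero_mul]
  | add A B hA hB => rw [up_add, lin_add, hA, hB, map_add, Nat.cast_add, add_mul]
  | single p n => rw [up_single, lin_single, Finsupp.degree_single, Int.cast_natCast]

/-- a pointwise bound gives a bound on effective divisors -/
theorem abs_lin_up_le {φ : P → ℝ} {C : ℝ} (h : ∀ p, |φ p| ≤ C) (A : P →₀ ℕ) :
    |lin φ (up A)| ≤ (A.degree : ℝ) * C := by
  induction A using Finsupp.induction_linear with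
  | zero => rw [up_zero, lin_zero, map_zero, Nat.cast_zero, zero_mul, abs_zero]
  | add A B hA hB =>
    rw [up_add, lin_add, map_add, Nat.cast_add, add_mul]
    exact (abs_add_le _ _).trans (add_le_add hA hB)
  | single p n =>
    rw [up_single, lin_single, Finsupp.degree_single, Int.cast_natCast, abs_mul, Nat.abs_cast]
    exact mul_le_mul_of_nonneg_left (h p) (Nat.cast_nonneg n)

/-! ### `bil` -/

theorem bil_eq_lin (δ : P → P → ℝ) (D E : P →₀ ℤ) :
    bil δ D E = lin (fun p => lin (δ p) E) D := by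
  unfold bil lin
  refine Finsupp.sum_congr fun p _ => ?_
  rw [Finsupp.mul_sum]
  exact Finsupp.sum_congr fun _ _ => mul_assoc _ _ _

theorem bil_zero_left (δ : P → P → ℝ) (E : P →₀ ℤ) : bil δ 0 E = 0 := by
  rw [bil_eq_lin, lin_zero]

theorem bil_zero_right (δ : P → P → ℝ) (D : P →₀ ℤ) : bil δ D 0 = 0 := by
  rw [bil_eq_lin]
  simp only [lin_zero, lin_fun_zero]

theorem bil_add_left (δ : P → P → ℝ) (D D' E : P →₀ ℤ) :
    bil δ (D + D') E = bil δ D E + bil δ D' E := by
  simp only [bil_eq_lin, lin_add]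

theorem bil_add_right (δ : P → P → ℝ) (D E E' : P →₀ ℤ) :
    bil δ D (E + E') = bil δ D E + bil δ D E' := by
  simp only [bil_eq_lin, lin_add, lin_fun_add]

theorem bil_neg_left (δ : P → P → ℝ) (D E : P →₀ ℤ) : bil δ (-D) E = - bil δ D E := by
  simp only [bil_eq_lin, lin_neg]

theorem bil_neg_right (δ : P → P → ℝ) (D E : P →₀ ℤ) : bil δ D (-E) = - bil δ D E := by
  simp only [bil_eq_lin, lin_neg, lin_fun_neg]

theorem bil_sub_left (δ : P → P → ℝ) (D D' E : P →₀ ℤ) :
    bil δ (D - D') E = bil δ D E - bil δ D' E := by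
  simp only [bil_eq_lin, lin_sub]

theorem bil_sub_right (δ : P → P → ℝ) (D E E' : P →₀ ℤ) :
    bil δ D (E - E') = bil δ D E - bil δ D E' := by
  simp only [bil_eq_lin, lin_sub, lin_fun_sub]

theorem bil_single_left (δ : P → P → ℝ) (p : P) (n : ℤ) (E : P →₀ ℤ) :
    bil δ (Finsupp.single p n) E = n * lin (δ p) E := by
  rw [bil_eq_lin, lin_single]

theorem bil_single_right (δ : P → P → ℝ) (D : P →₀ ℤ) (q : P) (m : ℤ) :
    bil δ D (Finsupp.single q m) = m * lin (fun p => δ p q) D := by
  rw [bil_eq_lin]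
  simp only [lin_single]
  exact lin_fun_mul _ _ _

theorem bil_comm {δ : P → P → ℝ} (hδ : ∀ p q, δ p q = δ q p) (D E : P →₀ ℤ) :
    bil δ D E = bil δ E D := by
  induction D using Finsupp.induction_linear with
  | zero => rw [bil_zero_left, bil_zero_right]
  | add D D' h h' => rw [bil_add_left, bil_add_right, h, h']
  | single p n =>
    rw [bil_single_left, bil_single_right]
    congr 2
    funext q
    exact hδ p q

/-! ### `del`, `dd`, `del2` -/

variable (X : HtAx P)

theorem del_comm (p q : P) : X.del p q = X.del q p := by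
  unfold HtAx.del
  rw [add_comm (pt p) (pt q)]
  ring

theorem dd_comm (D E : P →₀ ℤ) : X.dd D E = X.dd E D := bil_comm (del_comm X) D E

theorem dd_add_left (D D' E : P →₀ ℤ) : X.dd (D + D') E = X.dd D E + X.dd D' E :=
  bil_add_left _ _ _ _

theorem dd_add_right (D E E' : P →₀ ℤ) : X.dd D (E + E') = X.dd D E + X.dd D E' :=
  bil_add_right _ _ _ _

theorem dd_sub_left (D D' E : P →₀ ℤ) : X.dd (D - D') E = X.dd D E - X.dd D' E :=
  bil_sub_left _ _ _ _

theorem dd_sub_right (D E E' : P →₀ ℤ) : X.dd D (E - E') = X.dd D E - X.dd D E' :=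
  bil_sub_right _ _ _ _

theorem dd_zero_left (E : P →₀ ℤ) : X.dd 0 E = 0 := bil_zero_left _ _

theorem dd_zero_right (D : P →₀ ℤ) : X.dd D 0 = 0 := bil_zero_right _ _

theorem dd_single_left (p : P) (n : ℤ) (E : P →₀ ℤ) :
    X.dd (Finsupp.single p n) E = n * lin (X.del p) E := bil_single_left _ _ _ _

theorem dd_single_right (D : P →₀ ℤ) (q : P) (m : ℤ) :
    X.dd D (Finsupp.single q m) = m * lin (X.del q) D := by
  rw [dd_comm, dd_single_left]

theorem dd_pt_left (p : P) (E : P →₀ ℤ) : X.dd (up (pt p)) E = lin (X.del p) E := by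
  rw [up_pt, dd_single_left, Int.cast_one, one_mul]

theorem dd_pt_right (D : P →₀ ℤ) (q : P) : X.dd D (up (pt q)) = lin (X.del q) D := by
  rw [dd_comm, dd_pt_left]

theorem del2_zero : X.del2 0 = 0 := by
  unfold HtAx.del2
  rw [up_zero, dd_zero_left, lin_zero]
  norm_num

/-- `δ₂(A + B) = δ₂(A) + δ₂(B) + δ(A, B)` -/
theorem del2_add (A B : P →₀ ℕ) :
    X.del2 (A + B) = X.del2 A + X.del2 B + X.dd (up A) (up B) := by
  unfold HtAx.del2
  rw [up_add, dd_add_left, dd_add_right, dd_add_right, lin_add, dd_comm X (up B) (up A)]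
  ring

theorem del2_pt (p : P) : X.del2 (pt p) = 0 := by
  unfold HtAx.del2
  rw [dd_pt_left, lin_pt, lin_pt]
  norm_num

theorem del2_add_pt (A : P →₀ ℕ) (q : P) :
    X.del2 (A + pt q) = X.del2 A + lin (X.del q) (up A) := by
  rw [del2_add, del2_pt, dd_pt_right, add_zero]

/-! ### induction one point at a time -/

theorem induction_pt {motive : (P →₀ ℕ) → Prop} (h0 : motive 0)
    (hadd : ∀ (B : P →₀ ℕ) (q : P), motive B → motive (B + pt q)) (A : P →₀ ℕ) : motive A := by
  induction A using Finsupp.induction with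
  | zero => exact h0
  | single_add a b f _ _ hf =>
    clear * - hf hadd
    induction b with
    | zero => rwa [Finsupp.single_zero, zero_add]
    | succ b ih =>
      have h1 : Finsupp.single a (b + 1) + f = (Finsupp.single a b + f) + pt a := by
        rw [Finsupp.single_add]
        abel
      rw [h1]
      exact hadd _ _ ih

theorem degree_add_pt (B : P →₀ ℕ) (q : P) : (B + pt q).degree = B.degree + 1 := by
  rw [map_add, Finsupp.degree_single]

end LB

end Fermat.Agent.S17.HN.FO
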