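import Fermat.Agent.S17.HN.FO.Defs
import Fermat.Agent.S17.HN.FO.LinBil

/-! # FO-A: `(MULT) ⇒ (CUBE), (LEV), (W)` -/

set_option autoImplicit false

namespace Fermat.Agent.S17.HN.FO

variable {P : Type} (X : HtAx P)

/-- **FO-A1 (CUBE).** Subtract `mult0` from `mult1`. -/
theorem cube (b : ℕ) : ∃ J : ℕ, ∀ j ≥ J, ∃ C : ℝ, ∀ (B : P →₀ ℕ) (p q : P), B.degree ≤ b →
    |X.hh j (B + pt q + pt p) - X.hh j (B + pt q) - X.hh j (B + pt p) + X.hh j B + X.del p q| ≤ C := by
  obtain ⟨J0, h0⟩ := X.mult0 b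
  obtain ⟨J1, h1⟩ := X.mult1 b
  refine ⟨max J0 J1 + 1, fun j hj => ?_⟩
  obtain ⟨j', rfl⟩ : ∃ j', j = j' + 1 := ⟨j - 1, by omega⟩
  have hj' : max J0 J1 ≤ j' := by omega
  obtain ⟨C0, hC0⟩ := h0 j' ((le_max_left _ _).trans hj')
  obtain ⟨C1, hC1⟩ := h1 j' ((le_max_right _ _).trans hj')
  refine ⟨C1 + C0, fun B p q hB => ?_⟩
  have e0 := hC0 B p hB
  have e1 := hC1 B p q hB
  have key : X.hh (j' + 1) (B + pt q + pt p) - X.hh (j' + 1) (B + pt q) - X.hh (j' + 1) (B + pt p)
      + X.hh (j' + 1) B + X.del p q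
      = ((X.hh (j' + 1) (B + pt q + pt p) - X.hh (j' + 1) (B + pt q))
          - (X.hh 1 (pt q + pt p) - X.hh 1 (pt q)) - (X.hh j' (B + pt p) - X.hh j' B))
        - ((X.hh (j' + 1) (B + pt p) - X.hh (j' + 1) B) - X.hh 1 (pt p)
          - (X.hh j' (B + pt p) - X.hh j' B)) := by
    unfold HtAx.del
    rw [add_comm (pt p) (pt q)]
    ring
  rw [key]
  exact (abs_sub _ _).trans (add_le_add e1 e0)

/-- **FO-A2 (LEV).** `mult0` with `B = 0`, iterated. -/
theorem lev (i : ℕ) : ∃ J : ℕ, ∀ j ≥ J, ∃ C : ℝ, ∀ p : P,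
    |X.hh (j + i) (pt p) - X.hh j (pt p) - i * X.hh 1 (pt p)| ≤ C := by
  obtain ⟨J0, h0⟩ := X.mult0 0
  refine ⟨J0, fun j hj => ?_⟩
  induction i with
  | zero => exact ⟨0, fun p => by simp⟩
  | succ i ih =>
    obtain ⟨C, hC⟩ := ih
    obtain ⟨C', hC'⟩ := h0 (j + i) (hj.trans (Nat.le_add_right _ _))
    refine ⟨C + C', fun p => ?_⟩
    have e0 := hC' 0 p (by simp)
    rw [zero_add, X.hh_zero, X.hh_zero, sub_zero, sub_zero] at e0
    have key : X.hh (j + (i + 1)) (pt p) - X.hh j (pt p) - ((i + 1 : ℕ) : ℝ) * X.hh 1 (pt p)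
        = (X.hh (j + i) (pt p) - X.hh j (pt p) - i * X.hh 1 (pt p))
          + (X.hh (j + i + 1) (pt p) - X.hh 1 (pt p) - X.hh (j + i) (pt p)) := by
      rw [← add_assoc]
      push_cast
      ring
    rw [key]
    exact (abs_add_le _ _).trans (add_le_add (hC p) e0)

open LB in
/-- the increment `hh_j(A + p) - hh_j(A) = hh_j(p) - δ(p, A) + O(deg A)` -/
theorem W_incr {a j : ℕ} {C : ℝ}
    (hC : ∀ (B : P →₀ ℕ) (p q : P), B.degree ≤ a →
      |X.hh j (B + pt q + pt p) - X.hh j (B + pt q) - X.hh j (B + pt p) + X.hh j B + X.del p q|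
        ≤ C) (A : P →₀ ℕ) :
    A.degree ≤ a → ∀ p : P,
      |X.hh j (A + pt p) - X.hh j A - (X.hh j (pt p) - lin (X.del p) (up A))|
        ≤ (A.degree : ℝ) * C := by
  induction A using induction_pt with
  | h0 =>
    intro _ p
    rw [zero_add, X.hh_zero, up_zero, lin_zero, map_zero]
    simp
  | hadd B q ih =>
    intro hdeg p
    rw [degree_add_pt] at hdeg
    have hB : B.degree ≤ a := by omega
    have e1 := ih hB p
    have e2 := hC B p q hB
    have key : X.hh j (B + pt q + pt p) - X.hh j (B + pt q)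
        - (X.hh j (pt p) - lin (X.del p) (up (B + pt q)))
        = (X.hh j (B + pt p) - X.hh j B - (X.hh j (pt p) - lin (X.del p) (up B)))
          + (X.hh j (B + pt q + pt p) - X.hh j (B + pt q) - X.hh j (B + pt p) + X.hh j B
            + X.del p q) := by
      rw [up_add, lin_add, lin_pt]
      ring
    rw [key, degree_add_pt]
    push_cast
    rw [add_mul, one_mul]
    exact (abs_add_le _ _).trans (add_le_add e1 e2)

open LB in
/-- **FO-A3 (W).** Induction on the degree with `cube`. -/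
theorem W (a : ℕ) : ∃ J : ℕ, ∀ j ≥ J, ∃ C : ℝ, ∀ A : P →₀ ℕ, A.degree ≤ a →
    |X.hh j A - (lin (fun p => X.hh j (pt p)) (up A) - X.del2 A)| ≤ C := by
  obtain ⟨J, hJ⟩ := cube X a
  refine ⟨J, fun j hj => ?_⟩
  obtain ⟨C, hC⟩ := hJ j hj
  have hC' : ∀ (B : P →₀ ℕ) (p q : P), B.degree ≤ a →
      |X.hh j (B + pt q + pt p) - X.hh j (B + pt q) - X.hh j (B + pt p) + X.hh j B + X.del p q|
        ≤ |C| := fun B p q hB => (hC B p q hB).trans (le_abs_self C)
  have main : ∀ A : P →₀ ℕ, A.degree ≤ a →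
      |X.hh j A - (lin (fun p => X.hh j (pt p)) (up A) - X.del2 A)|
        ≤ (A.degree : ℝ) * ((a : ℝ) * |C|) := by
    intro A
    induction A using induction_pt with
    | h0 =>
      intro _
      rw [X.hh_zero, up_zero, lin_zero, del2_zero, map_zero]
      simp
    | hadd B q ih =>
      intro hdeg
      rw [degree_add_pt] at hdeg
      have hB : B.degree ≤ a := by omega
      have e1 := ih hB
      have e2 := W_incr X hC' B hB q
      have e3 : (B.degree : ℝ) * |C| ≤ (a : ℝ) * |C| :=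
        mul_le_mul_of_nonneg_right (by exact_mod_cast hB) (abs_nonneg C)
      have key : X.hh j (B + pt q) - (lin (fun p => X.hh j (pt p)) (up (B + pt q))
            - X.del2 (B + pt q))
          = (X.hh j B - (lin (fun p => X.hh j (pt p)) (up B) - X.del2 B))
            + (X.hh j (B + pt q) - X.hh j B - (X.hh j (pt q) - lin (X.del q) (up B))) := by
        rw [up_add, lin_add, lin_pt, del2_add_pt]
        ring
      rw [key, degree_add_pt]
      push_cast
      rw [add_mul, one_mul]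
      exact (abs_add_le _ _).trans (add_le_add e1 (e2.trans e3))
  refine ⟨(a : ℝ) * ((a : ℝ) * |C|), fun A hA => (main A hA).trans ?_⟩
  exact mul_le_mul_of_nonneg_right (by exact_mod_cast hA) (by positivity)

end Fermat.Agent.S17.HN.FO
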